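/-
Cluster A / F3-I2, piece (D2): (V2) a valuation of `F` that is `≤ 1` on the valuation ring of a
place is a positive multiple of the order function of the place (helper84).
-/
import Mathlib
import Fermat.Prelude.Def_AlgebraicCurve_CanonicalDivisor
import Fermat.Agent.MUL.S24.Glue

set_option autoImplicit false

open AlgebraicCurve

namespace Fermat.Agent.F3Places

variable {K F : Type*} [Field K] [Field F] [Algebra K F]

/-- a unit of the valuation ring has `u = 1`. -/
theorem valuation_unit_eq_one (v : Place K F) (u : Valuation F (WithZero (Multiplicative ℤ)))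
    (hle : ∀ x ∈ v.toValuationSubring, u x ≤ 1) (a : v.toValuationSubringˣ) :
    u ((a : v.toValuationSubring) : F) = 1 := by
  have h1 : u ((a : v.toValuationSubring) : F) ≤ 1 := hle _ (a : v.toValuationSubring).2
  have h2 : u (((a⁻¹ : v.toValuationSubringˣ) : v.toValuationSubring) : F) ≤ 1 :=
    hle _ ((a⁻¹ : v.toValuationSubringˣ) : v.toValuationSubring).2
  have hmul : ((a : v.toValuationSubring) : F) *
      (((a⁻¹ : v.toValuationSubringˣ) : v.toValuationSubring) : F) = 1 := by
    have h := congrArg (Subtype.val : v.toValuationSubring → F) (Units.mul_inv a)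
    exact h
  have h3 : u ((a : v.toValuationSubring) : F) *
      u (((a⁻¹ : v.toValuationSubringˣ) : v.toValuationSubring) : F) = 1 := by
    rw [← map_mul, hmul, map_one]
  refine le_antisymm h1 ?_
  by_contra hlt
  rw [not_le] at hlt
  have h0 : u (((a⁻¹ : v.toValuationSubringˣ) : v.toValuationSubring) : F) ≠ 0 := by
    intro h
    rw [h, mul_zero] at h3
    exact zero_ne_one h3
  have : u ((a : v.toValuationSubring) : F) *
      u (((a⁻¹ : v.toValuationSubringˣ) : v.toValuationSubring) : F) < 1 := by
    calc u ((a : v.toValuationSubring) : F) *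
        u (((a⁻¹ : v.toValuationSubringˣ) : v.toValuationSubring) : F)
        < 1 * u (((a⁻¹ : v.toValuationSubringˣ) : v.toValuationSubring) : F) :=
          mul_lt_mul_of_pos_right hlt (zero_lt_iff.mpr h0)
      _ ≤ 1 * 1 := by rw [one_mul, one_mul]; exact h2
      _ = 1 := one_mul 1
  rw [h3] at this
  exact lt_irrefl _ this

/-- (V2) A `ℤ`-valued valuation `u` of `F` which is `≤ 1` on the valuation ring of the place `v`
and not trivial is `exp (- e · ord_v)` for a positive integer `e`. -/
theorem exists_mul_ord_eq_of_valuation'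
    (v : Place K F) (u : Valuation F (WithZero (Multiplicative ℤ)))
    (hle : ∀ x ∈ v.toValuationSubring, u x ≤ 1) (hnt : ∃ x : F, x ≠ 0 ∧ u x ≠ 1) :
    ∃ e : ℕ, 0 < e ∧ ∀ x : F, x ≠ 0 → -WithZero.log (u x) = (e : ℤ) * v.ord x := by
  obtain ⟨π, hπ⟩ := IsDiscreteValuationRing.exists_irreducible v.toValuationSubring
  have hπ0 : (π : F) ≠ 0 := by
    intro h
    exact hπ.ne_zero (Subtype.ext h)
  have huπ0 : u (π : F) ≠ 0 := (Valuation.ne_zero_iff u).mpr hπ0
  have key : ∀ x : F, x ≠ 0 → u x = u (π : F) ^ (v.ord x) := by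
    intro x hx
    obtain ⟨a, ha⟩ := v.exists_unit_mul_zpow hx hπ
    conv_lhs => rw [ha]
    rw [map_mul, valuation_unit_eq_one v u hle a, one_mul, map_zpow₀]
  have hπle : u (π : F) ≤ 1 := hle _ π.2
  have hπlt : u (π : F) < 1 := by
    refine lt_of_le_of_ne hπle ?_
    intro h1
    obtain ⟨x, hx, hux⟩ := hnt
    apply hux
    rw [key x hx, h1, one_zpow]
  have hlog : WithZero.log (u (π : F)) < 0 := by
    rw [← WithZero.log_one]
    exact WithZero.log_lt_log huπ0 one_ne_zero |>.mpr hπlt
  refine ⟨(-WithZero.log (u (π : F))).toNat, ?_, ?_⟩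
  · omega
  · intro x hx
    rw [key x hx, WithZero.log_zpow, Int.toNat_of_nonneg (by omega)]
    simp only [smul_eq_mul]
    ring

end Fermat.Agent.F3Places
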